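import Fermat.Agent.S43.R2.Gen

/-!
# S43 / R2 : the partial Atkin-Lehner operator `w_q` on `F1(N)`, `N = M q`, `(M, q) = 1`  (analytic construction)

`W = (q y; N qt)`, `q t - M y = 1`.   For `D : X1Data (M q)`:

* `wF b hN D : F1(N) →ₐ[ℚ̄] F1(N)`, `φ_wF : D.φ (wF f) = (D.φ f) ∘ W`;
* `dia_wF`   : `⟨d⟩ (w f) = w (⟨dW d⟩ f)`, `dW d = q t d - M y d⁻¹` (`≡ d⁻¹ mod q`, `≡ d mod M`);
* `wF_wF`    : `w (w f) = ⟨d₂⟩ f`, `d₂ = M y + q t²` (`≡ -1 mod q`, `≡ q⁻¹ mod M`);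
* `wE`       : `w` as an automorphism;
* `wF_jq`    : `w j = j(t^q)`;  `coe_wF_xg` : the `q`-expansion of `w x_{(0,a)}` is `ys ζ (aM, aqt)`.
-/

set_option autoImplicit false
set_option linter.unusedSectionVars false

open AlgebraicCurve ModularCurve UpperHalfPlane CongruenceSubgroup Matrix.SpecialLinearGroup
open scoped MatrixGroups Matrix

namespace Fermat.Agent.S43.R2

open Fermat.Agent.S24 Fermat.Agent.ES Fermat.Agent.ES.An Fermat.Agent.S48 Fermat.Agent.S48.Coh1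
open Fermat.Agent.S48.An1 (X1Data merOp repP Gpm)

noncomputable section

variable {M q : ℕ} [NeZero M] [NeZero q] (b : BZ M q)

/-- `W` in `GL₂(ℝ)⁺`. -/
def Wp : GLp := ⟨wRep b, det_wRep_pos b⟩

theorem Wp_eq : Wp b = slp (g0 b) * dP q := Subtype.ext rfl

theorem cmp_Wp (u : Mer) : cmp (Wp b) u = cmp (dP q) (cmp (slp (g0 b)) u) := by
  rw [Wp_eq, cmp_mul]

theorem Wp_mul_slp (γ : Gamma0 (M * q)) :
    Wp b * slp (γ : SL(2, ℤ)) = slp (cW b γ : SL(2, ℤ)) * Wp b := Subtype.ext (wRep_mul b γ)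

theorem cmp_slp_cmp_Wp (γ : Gamma0 (M * q)) (u : Mer) :
    cmp (slp (γ : SL(2, ℤ))) (cmp (Wp b) u) = cmp (Wp b) (cmp (slp (cW b γ : SL(2, ℤ))) u) := by
  rw [← cmp_mul, Wp_mul_slp, cmp_mul]

theorem exists_wRep_rat :
    ∃ α : GL (Fin 2) ℚ, wRep b = Matrix.GeneralLinearGroup.map (Rat.castHom ℝ) α := by
  have hSL : ∀ g : SL(2, ℤ),
      mapGL ℝ g = Matrix.GeneralLinearGroup.map (Rat.castHom ℝ) (mapGL ℚ g) := by
    intro g
    ext i j
    simp [mapGL_coe_matrix]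
  obtain ⟨α, hα⟩ :=
    P2MW.S_ModularFormClass_isBoundedAt_heckeU.ModularForm.S06W2.exists_heckeDiagMatrix_eq_map q
  exact ⟨mapGL ℚ (g0 b) * α, by rw [wRep, hα, hSL, map_mul]⟩

theorem merOp_W1 (u : Mer) :
    merOp (W1 M q b) (fun _ => det_wRep_pos b) u = cmp (Wp b) u := by
  show ∏ _x : Unit, cmp (Wp b) u = cmp (Wp b) u
  simp

theorem isMFr_cmp_Wp {u : Mer} (hu : X1.IsMFr (Gpm (M * q)) u) :
    X1.IsMFr (Gpm (M * q)) (cmp (Wp b) u) := by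
  rw [← merOp_W1]
  exact An1.IsMFr.merOp (W1 M q b) _ (fun _ => exists_wRep_rat b) (An1.Gamma1_le_Gpm _)
    (An1.neg_one_mem_Gpm _) (fun _ h => h) hu

/-! ### the generators -/

/-- `(0,a) g0 = (aM, aqt)`. -/
def vW (a : ZMod (M * q)) : Fin 2 → ZMod (M * q) := ![a * M, a * (q * b.t)]

theorem zero_cons_vecMul_g0 (a : ZMod (M * q)) :
    (![0, a] : Fin 2 → ZMod (M * q)) ᵥ* ((g0 b : SL(2, ℤ)) : SL(2, ZMod (M * q))).1 = vW b a := by
  have h10 : (((g0 b) 1 0 : ℤ) : ZMod (M * q)) = (M : ZMod (M * q)) := by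
    show (((M : ℤ)) : ZMod (M * q)) = _
    simp
  have h11 : (((g0 b) 1 1 : ℤ) : ZMod (M * q)) = (q : ZMod (M * q)) * b.t := by
    show (((q : ℤ) * b.t : ℤ) : ZMod (M * q)) = _
    simp
  ext i
  fin_cases i
  · simp [Matrix.vecMul, dotProduct, Fin.sum_univ_two, vW, h10]
  · simp [Matrix.vecMul, dotProduct, Fin.sum_univ_two, vW, h11]

theorem cmp_g0_XMer (a : ZMod (M * q)) :
    cmp (slp (g0 b)) (An1.XMer (M * q) a) = XvMer (vW b a) := by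
  unfold An1.XMer XvMer
  rw [cmp_algebraMap]
  refine congrArg _ (Subtype.ext ?_)
  funext τ
  rw [cmpHol_apply, slp_smul]
  show EIS.Xf (M * q) ![0, a] ((g0 b) • τ) = EIS.Xf (M * q) (vW b a) τ
  rw [EIS.Xf_smul, zero_cons_vecMul_g0]

theorem redM_vW (a : ZMod (M * q)) : redM M q (vW b a 0) = 0 := by
  show redM M q (a * M) = 0
  rw [map_mul, map_natCast, ZMod.natCast_self, mul_zero]

theorem vW_ne_zero (hN : 1 < M * q) (a : (ZMod (M * q))ˣ) : vW b (a : ZMod (M * q)) ≠ 0 := by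
  have : Fact (1 < M * q) := ⟨hN⟩
  intro h
  have h0 : (a : ZMod (M * q)) * M = 0 := congrFun h 0
  have h1 : (a : ZMod (M * q)) * (q * b.t) = 0 := congrFun h 1
  have h0' : (M : ZMod (M * q)) = 0 := by
    have := congrArg (fun x => ((a⁻¹ : (ZMod (M * q))ˣ) : ZMod (M * q)) * x) h0
    simpa using this
  have h1' : (q : ZMod (M * q)) * b.t = 0 := by
    have := congrArg (fun x => ((a⁻¹ : (ZMod (M * q))ˣ) : ZMod (M * q)) * x) h1
    simpa using this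
  have h2 := cast_BZ b
  rw [h0', h1', zero_mul, sub_zero] at h2
  exact zero_ne_one h2

variable (hN : 1 < M * q) (D : X1Data (M * q))

include hN in
theorem hasLau_cmp_Wp_XMer (a : (ZMod (M * q))ˣ) :
    HasLau 1 (cmp (Wp b) (An1.XMer (M * q) (a : ZMod (M * q))))
      (coeffMap iotaC (ys (X1.zM (M * q)) (vW b (a : ZMod (M * q))))) := by
  rw [cmp_Wp, cmp_g0_XMer, coeffMap_ys, X1.iotaC_zM]
  exact hasLau_cmp_XvMer _ (vW_ne_zero b hN a) (redM_vW b _)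

include D in
theorem hasLau_cmp_Wp_jMer :
    HasLau 1 (cmp (Wp b) jMer) (coeffMap iotaC (Vq Qb q (jqModC Qb))) := by
  rw [cmp_Wp, An1.cmp_jMer, coeffMap_Vq]
  have h := D.hasLau ⟨jqModC Qb, X1.jq_mem (M * q)⟩
  rw [show D.B.φ ⟨jqModC Qb, X1.jq_mem (M * q)⟩ = jMer from D.φ_jq] at h
  exact An1.hasLau_cmp_inf q (dP q) (coe_dP_smul q) _ _ h

include hN in
theorem exists_w (f : (X1.F1Q (M * q)).F) :
    ∃ f' : (X1.F1Q (M * q)).F, D.φ f' = cmp (Wp b) (D.φ f) := by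
  induction f using An1.QField.induction with
  | hgen x hx =>
    rcases hx with rfl | ⟨a, rfl⟩
    · have h1 : D.φ ⟨jqModC Qb, X1.jq_mem (M * q)⟩ = jMer := D.φ_jq
      obtain ⟨h, h'⟩ := D.exists_of_isMFr _ _
        (isMFr_cmp_Wp b (h1 ▸ D.isMFr ⟨jqModC Qb, X1.jq_mem (M * q)⟩)) (hasLau_cmp_Wp_jMer b D)
      exact ⟨⟨_, h⟩, h'.trans (congrArg _ h1.symm)⟩
    · have h1 : D.φ ⟨X1.xg (M * q) (a : ZMod (M * q)), X1.xg_mem (M * q) a⟩
          = An1.XMer (M * q) (a : ZMod (M * q)) := D.φ_xg a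
      obtain ⟨h, h'⟩ := D.exists_of_isMFr _ _
        (isMFr_cmp_Wp b (h1 ▸ D.isMFr ⟨X1.xg (M * q) (a : ZMod (M * q)), X1.xg_mem (M * q) a⟩))
        (hasLau_cmp_Wp_XMer b hN a)
      exact ⟨⟨_, h⟩, h'.trans (congrArg _ h1.symm)⟩
  | hc c => exact ⟨algebraMap Qb _ c, by rw [X1Data.φ, D.B.φ_alg, AlgHom.commutes]⟩
  | hadd f g hf hg =>
    obtain ⟨f', hf'⟩ := hf
    obtain ⟨g', hg'⟩ := hg
    exact ⟨f' + g', by rw [RingHom.map_add, RingHom.map_add, map_add, hf', hg']⟩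
  | hmul f g hf hg =>
    obtain ⟨f', hf'⟩ := hf
    obtain ⟨g', hg'⟩ := hg
    exact ⟨f' * g', by rw [map_mul, map_mul, map_mul, hf', hg']⟩
  | hinv f hf =>
    obtain ⟨f', hf'⟩ := hf
    exact ⟨f'⁻¹, by rw [map_inv₀, map_inv₀, map_inv₀, hf']⟩

/-- `f ↦ f ∘ W`. -/
def wFun (f : (X1.F1Q (M * q)).F) : (X1.F1Q (M * q)).F := (exists_w b hN D f).choose

theorem φ_wFun (f : (X1.F1Q (M * q)).F) : D.φ (wFun b hN D f) = cmp (Wp b) (D.φ f) :=
  (exists_w b hN D f).choose_spec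

/-- **`w_q` on `F1(M q)`.** -/
def wF : (X1.F1Q (M * q)).F →ₐ[Qb] (X1.F1Q (M * q)).F where
  toFun := wFun b hN D
  map_one' := D.φ_injective (by rw [φ_wFun, map_one, map_one])
  map_mul' x y := D.φ_injective (by rw [φ_wFun, map_mul, map_mul, map_mul, φ_wFun, φ_wFun])
  map_zero' := D.φ_injective (by rw [φ_wFun, map_zero, map_zero])
  map_add' x y := D.φ_injective (by
    rw [φ_wFun, RingHom.map_add, map_add, RingHom.map_add, φ_wFun, φ_wFun])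
  commutes' c := D.φ_injective (by rw [φ_wFun, X1Data.φ, D.B.φ_alg, AlgHom.commutes])

theorem φ_wF (f : (X1.F1Q (M * q)).F) : D.φ (wF b hN D f) = cmp (Wp b) (D.φ f) := φ_wFun b hN D f

end

end Fermat.Agent.S43.R2
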