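import Fermat.Agent.S43.R2.An

/-!
# S43 / R2 : formal properties of `w_q` on `F1(M q)`

* `dia_wF`   : `⟨d⟩ (w f) = w (⟨dW d⟩ f)`, `coe_dW : dW d = q t d - M y d⁻¹` (`≡ d⁻¹ mod q`, `≡ d mod M`);
* `wF_wF`    : `w (w f) = ⟨d2⟩ f`, `coe_d2 : d2 = M y + q t²` (`≡ -1 mod q`, `≡ q⁻¹ mod M`);
* `wE`       : `w` as an automorphism of `F1(M q)` over `ℚ̄`;
* `coe_wF_of_hasLau`, `coe_wF_jq`, `coe_wF_xg` : `q`-expansions.
-/

set_option autoImplicit false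
set_option linter.unusedSectionVars false

open AlgebraicCurve ModularCurve UpperHalfPlane CongruenceSubgroup Matrix.SpecialLinearGroup
open scoped MatrixGroups Matrix

namespace Fermat.Agent.S43.R2

open Fermat.Agent.S24 Fermat.Agent.ES Fermat.Agent.ES.An Fermat.Agent.S48 Fermat.Agent.S48.Coh1
open Fermat.Agent.S48.An1 (X1Data merOp repP Gpm)

noncomputable section

theorem cmp_congr {α β : GLp} (h : ∀ τ : ℍ, α • τ = β • τ) (u : Mer) : cmp α u = cmp β u := by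
  obtain ⟨a, c, -, rfl⟩ := exists_div u
  have key : ∀ f : Hol, cmpHol α f = cmpHol β f := fun f =>
    Subtype.ext (funext fun τ => by rw [cmpHol_apply, cmpHol_apply, h])
  rw [cmp_div, cmp_div, key, key]

variable {M q : ℕ} [NeZero M] [NeZero q] (b : BZ M q)

/-! ### diamonds -/

/-- `d ↦ (d⁻¹ mod q, d mod M)`. -/
def dW (d : (ZMod (M * q))ˣ) : (ZMod (M * q))ˣ :=
  (Gamma0Map_isUnit (M * q) (cW b (sig (M * q) d))).unit

theorem coe_dW' (d : (ZMod (M * q))ˣ) :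
    (dW b d : ZMod (M * q)) = Gamma0Map (M * q) (cW b (sig (M * q) d)) := rfl

theorem coe_dW (d : (ZMod (M * q))ˣ) :
    (dW b d : ZMod (M * q)) = (q : ZMod (M * q)) * (b.t : ZMod (M * q)) * d
      - (M : ZMod (M * q)) * (b.y : ZMod (M * q)) * ((d⁻¹ : (ZMod (M * q))ˣ) : ZMod (M * q)) := by
  have h1 := cast_a_mul_d (sig (M * q) d)
  rw [Gamma0Map_sig] at h1
  have h2 : ((((sig (M * q) d : SL(2, ℤ)) 0 0 : ℤ)) : ZMod (M * q))
      = ((d⁻¹ : (ZMod (M * q))ˣ) : ZMod (M * q)) := by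
    rw [← mul_one ((((sig (M * q) d : SL(2, ℤ)) 0 0 : ℤ)) : ZMod (M * q)), ← Units.mul_inv d,
      ← mul_assoc, h1, one_mul]
  rw [coe_dW', Gamma0Map_cW, Gamma0Map_sig, h2]

variable (hN : 1 < M * q) (D : X1Data (M * q))

theorem dia_wF (d : (ZMod (M * q))ˣ) (f : (X1.F1Q (M * q)).F) :
    An1.dia D d (wF b hN D f) = wF b hN D (An1.dia D (dW b d) f) := by
  apply D.φ_injective
  rw [An1.φ_dia, φ_wF, φ_wF, An1.φ_dia, cmp_slp_cmp_Wp]
  refine congrArg _ ?_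
  exact An1.cmp_eq_of_Gamma0Map_eq (fun γ => D.inv1 γ f) (by rw [Gamma0Map_sig, coe_dW'])

/-! ### `w²` -/

theorem g0_mul_g1_mem : g0 b * g1 b ∈ Gamma0 (M * q) := by
  rw [Gamma0_mem, sl_mul_apply]
  show (((M : ℤ) * q + q * b.t * M : ℤ) : ZMod (M * q)) = 0
  have : ((M : ℤ) * q + q * b.t * M : ℤ) = ((M * q : ℕ) : ℤ) * (1 + b.t) := by push_cast; ring
  rw [this]
  push_cast
  rw [← Nat.cast_mul, ZMod.natCast_self, zero_mul]

/-- `W² / q ∈ Γ₀(M q)`. -/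
def g2 : Gamma0 (M * q) := ⟨g0 b * g1 b, g0_mul_g1_mem b⟩

theorem Gamma0Map_g2 : Gamma0Map (M * q) (g2 b)
    = (M : ZMod (M * q)) * b.y + q * b.t * b.t := by
  show (((g0 b * g1 b) 1 1 : ℤ) : ZMod (M * q)) = _
  rw [sl_mul_apply]
  show (((M : ℤ) * b.y + q * b.t * b.t : ℤ) : ZMod (M * q)) = _
  push_cast
  ring

theorem dP_g0_dP_smul (τ : ℍ) : dP q • (g0 b) • dP q • τ = (g1 b) • τ := by
  have hq : (q : ℂ) ≠ 0 := Nat.cast_ne_zero.2 (NeZero.ne q)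
  have hden : (M : ℂ) * τ + b.t ≠ 0 := by
    intro h
    have h1 := congrArg Complex.im h
    simp only [Complex.add_im, Complex.mul_im, Complex.natCast_re, Complex.natCast_im, zero_mul,
      add_zero, Complex.intCast_im, Complex.zero_im, UpperHalfPlane.coe_im] at h1
    rcases mul_eq_zero.mp h1 with h2 | h2
    · exact NeZero.ne M (by exact_mod_cast h2)
    · exact τ.im_pos.ne' h2
  apply UpperHalfPlane.ext
  rw [coe_dP_smul, coe_specialLinearGroup_apply, coe_specialLinearGroup_apply, coe_dP_smul]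
  show (q : ℂ) * ((((algebraMap ℤ ℝ (1 : ℤ) : ℝ) : ℂ) * (q * τ) + ((algebraMap ℤ ℝ b.y : ℝ) : ℂ))
      / (((algebraMap ℤ ℝ (M : ℤ) : ℝ) : ℂ) * (q * τ) + ((algebraMap ℤ ℝ ((q : ℤ) * b.t) : ℝ) : ℂ)))
    = ((((algebraMap ℤ ℝ (q : ℤ) : ℝ) : ℂ)) * τ + ((algebraMap ℤ ℝ b.y : ℝ) : ℂ))
      / (((algebraMap ℤ ℝ (M : ℤ) : ℝ) : ℂ) * τ + ((algebraMap ℤ ℝ b.t : ℝ) : ℂ))
  simp only [eq_intCast, Int.cast_one, Int.cast_natCast, Int.cast_mul, Complex.ofReal_one,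
    Complex.ofReal_natCast, Complex.ofReal_intCast, Complex.ofReal_mul]
  have h2 : (M : ℂ) * (q * τ) + q * b.t = q * ((M : ℂ) * τ + b.t) := by ring
  rw [h2]
  field_simp

theorem Wp_Wp_smul (τ : ℍ) : (Wp b * Wp b) • τ = slp (g2 b : SL(2, ℤ)) • τ := by
  rw [mul_smul, Wp_eq, mul_smul, mul_smul, slp_smul, slp_smul, slp_smul, dP_g0_dP_smul]
  show (g0 b) • (g1 b) • τ = (g0 b * g1 b) • τ
  rw [mul_smul]

/-- `w² = ⟨d2⟩`. -/
def d2 : (ZMod (M * q))ˣ := (Gamma0Map_isUnit (M * q) (g2 b)).unit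

theorem coe_d2 : (d2 b : ZMod (M * q)) = (M : ZMod (M * q)) * b.y + q * b.t * b.t :=
  Gamma0Map_g2 b

theorem wF_wF (f : (X1.F1Q (M * q)).F) : wF b hN D (wF b hN D f) = An1.dia D (d2 b) f := by
  apply D.φ_injective
  rw [φ_wF, φ_wF, An1.φ_dia, ← cmp_mul, cmp_congr (Wp_Wp_smul b)]
  exact An1.cmp_eq_of_Gamma0Map_eq (fun γ => D.inv1 γ f) (by rw [Gamma0Map_sig]; rfl)

theorem wF_bijective : Function.Bijective (wF b hN D) := by
  refine ⟨(wF b hN D).toRingHom.injective, fun f => ?_⟩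
  refine ⟨wF b hN D (An1.dia D (d2 b)⁻¹ f), ?_⟩
  rw [wF_wF, ← AlgEquiv.mul_apply, ← map_mul, mul_inv_cancel, map_one]
  rfl

/-- **`w_q` as an automorphism of `F1(M q)`.** -/
def wE : (X1.F1Q (M * q)).F ≃ₐ[Qb] (X1.F1Q (M * q)).F :=
  AlgEquiv.ofBijective (wF b hN D) (wF_bijective b hN D)

theorem wE_apply (f : (X1.F1Q (M * q)).F) : wE b hN D f = wF b hN D f := rfl

theorem φ_wE (f : (X1.F1Q (M * q)).F) : D.φ (wE b hN D f) = cmp (Wp b) (D.φ f) := φ_wF b hN D f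

/-! ### `q`-expansions -/

theorem coe_wF_of_hasLau {f : (X1.F1Q (M * q)).F} {x : LaurentSeries Qb}
    (h : HasLau 1 (cmp (Wp b) (D.φ f)) (coeffMap iotaC x)) :
    ((wF b hN D f : (X1.F1Q (M * q)).F) : LaurentSeries Qb) = x := by
  have h1 := D.hasLau (wF b hN D f)
  rw [show D.B.φ (wF b hN D f) = cmp (Wp b) (D.φ f) from φ_wF b hN D f] at h1
  exact QDict.coeffMap_iotaC_injective (h1.unique h)

theorem coe_wF_jq :
    ((wF b hN D ⟨jqModC Qb, X1.jq_mem (M * q)⟩ : (X1.F1Q (M * q)).F) : LaurentSeries Qb)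
      = Vq Qb q (jqModC Qb) := by
  apply coe_wF_of_hasLau
  rw [show D.φ ⟨jqModC Qb, X1.jq_mem (M * q)⟩ = jMer from D.φ_jq]
  exact hasLau_cmp_Wp_jMer b D

theorem coe_wF_xg (a : (ZMod (M * q))ˣ) :
    ((wF b hN D ⟨X1.xg (M * q) (a : ZMod (M * q)), X1.xg_mem (M * q) a⟩ : (X1.F1Q (M * q)).F) :
      LaurentSeries Qb) = ys (X1.zM (M * q)) (vW b (a : ZMod (M * q))) := by
  apply coe_wF_of_hasLau
  rw [show D.φ ⟨X1.xg (M * q) (a : ZMod (M * q)), X1.xg_mem (M * q) a⟩ = _ from D.φ_xg a]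
  exact hasLau_cmp_Wp_XMer b hN a

end

end Fermat.Agent.S43.R2
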