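import Fermat.Agent.S43.R2.Mat
import Fermat.Agent.S48.An1.Out

/-!
# S43 / R2 : the `q`-expansion of `x_v(q τ)`, level `N = M q`, `v₀ ≡ 0 mod M`

`x_v = (G_{4,v}/K₄) E₄²/Δ` has an expansion in `t^{1/N}` (`EIS.hasSum_G_div_K`) in which only the exponents divisible by `M`
occur if `v₀ ≡ 0 mod M`; hence `x_v(q τ)` has an expansion in `t`, with coefficients in `ℚ(ζ_N)`:

  `ys z v = (∑_k nc z 4 v (M k) t^k) * wfac(t^q)`.
-/

set_option autoImplicit false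
set_option linter.unusedSectionVars false

open AlgebraicCurve ModularCurve UpperHalfPlane CongruenceSubgroup Function
open scoped MatrixGroups

namespace Fermat.Agent.S43.R2

open Fermat.Agent.S24 Fermat.Agent.ES Fermat.Agent.ES.An Fermat.Agent.S48

noncomputable section

local notation "𝕢" => Periodic.qParam

/-- `diag(q,1)` in `GL₂(ℝ)⁺`. -/
def dP (q : ℕ) : GLp := ⟨ModularForm.heckeDiagMatrix q, ModularForm.det_heckeDiagMatrix_pos q⟩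

theorem coe_dP_smul (q : ℕ) [NeZero q] (τ : ℍ) : ((dP q • τ : ℍ) : ℂ) = (q : ℂ) * τ :=
  ModularForm.coe_heckeDiagMatrix_smul (NeZero.ne q) τ

variable {M q : ℕ} [NeZero M] [NeZero q]

instance instNeZeroMul : NeZero (M * q) := ⟨Nat.mul_ne_zero (NeZero.ne M) (NeZero.ne q)⟩

/-- reduction `ℤ/Mq → ℤ/M`. -/
def redM (M q : ℕ) : ZMod (M * q) →+* ZMod M := ZMod.castHom (Dvd.intro q rfl) (ZMod M)

theorem coef_eq_zero_of_not_dvd {R : Type*} [CommRing R] (z : R) (k : ℕ)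
    (v : Fin 2 → ZMod (M * q)) (hv : redM M q (v 0) = 0) (n : ℕ) (hn : ¬ M ∣ n) :
    EIS.coef z k v n = 0 := by
  unfold EIS.coef
  refine Finset.sum_eq_zero fun m hm => ?_
  have hmn : m ∣ n := Nat.dvd_of_mem_divisors hm
  have key : ∀ w : ZMod (M * q), redM M q w = 0 → ((n / m : ℕ) : ZMod (M * q)) ≠ w := by
    intro w hw h
    have h1 := congrArg (redM M q) h
    rw [map_natCast, hw, ZMod.natCast_eq_zero_iff] at h1
    exact hn ((h1.mul_left m).trans (by rw [Nat.mul_div_cancel' hmn]))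
  rw [if_neg (key _ hv), if_neg (key _ (by rw [map_neg, hv, neg_zero])), mul_zero, add_zero,
    mul_zero]

theorem nc_eq_zero_of_not_dvd {R : Type*} [Field R] (z : R) (k : ℕ)
    (v : Fin 2 → ZMod (M * q)) (hv : redM M q (v 0) = 0) (n : ℕ) (hn : ¬ M ∣ n) :
    EIS.nc z k v n = 0 := by
  have hn0 : n ≠ 0 := by
    rintro rfl
    exact hn (dvd_zero M)
  rw [EIS.nc, if_neg hn0]
  exact coef_eq_zero_of_not_dvd z k v hv n hn

theorem qParam_dP (τ : ℍ) (k : ℕ) :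
    𝕢 ((M * q : ℕ) : ℝ) ((dP q • τ : ℍ) : ℂ) ^ (M * k) = 𝕢 (1 : ℝ) (τ : ℂ) ^ k := by
  have hM : (M : ℂ) ≠ 0 := Nat.cast_ne_zero.2 (NeZero.ne M)
  have hq : (q : ℂ) ≠ 0 := Nat.cast_ne_zero.2 (NeZero.ne q)
  rw [coe_dP_smul, Periodic.qParam, Periodic.qParam, ← Complex.exp_nat_mul, ← Complex.exp_nat_mul]
  congr 1
  push_cast
  field_simp

/-- the expansion of `G_{4,v}(qτ)/K₄`. -/
theorem hasSum_Gn_dP (v : Fin 2 → ZMod (M * q)) (hv0 : v ≠ 0) (hv : redM M q (v 0) = 0) (τ : ℍ) :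
    HasSum (fun k : ℕ => EIS.nc (EIS.zeta (M * q)) 4 v (M * k) • 𝕢 ((1 : ℕ) : ℝ) (τ : ℂ) ^ k)
      (EIS.Gn (M * q) 4 v (dP q • τ)) := by
  have h := EIS.hasSum_G_div_K (Or.inr rfl) v hv0 (dP q • τ)
  have hinj : Injective (fun k : ℕ => M * k) :=
    fun a b hab => Nat.eq_of_mul_eq_mul_left (Nat.pos_of_ne_zero (NeZero.ne M)) hab
  rw [← hinj.hasSum_iff] at h
  · refine h.congr_fun ?_ |> fun h' => h'
    intro k
    rw [Function.comp_apply, qParam_dP, Nat.cast_one]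
  · intro n hn
    rw [nc_eq_zero_of_not_dvd _ _ v hv n (fun ⟨k, hk⟩ => hn ⟨k, hk.symm⟩), zero_smul]

/-- `τ ↦ G_{4,v}(qτ)/K₄`. -/
def gq (v : Fin 2 → ZMod (M * q)) : ℍ → ℂ := fun τ => EIS.Gn (M * q) 4 v (dP q • τ)

theorem gq_mem (v : Fin 2 → ZMod (M * q)) (hv0 : v ≠ 0) (hv : redM M q (v 0) = 0) :
    gq v ∈ HolCusp 1 := by
  refine EIS.mem_HolCusp_of_bounded 1
    (cmpHol (dP q) ⟨EIS.Gn (M * q) 4 v, EIS.Gn_mdiff (by norm_num) v⟩).2 (fun τ => ?_)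
    ((EIS.tendsto_of_hasSum (by norm_num) (hasSum_Gn_dP v hv0 hv)).isBigO_one ℝ)
  have h1 := hasSum_Gn_dP v hv0 hv (((1 : ℕ) : ℝ) +ᵥ τ)
  have h2 := hasSum_Gn_dP v hv0 hv τ
  have hq : 𝕢 ((1 : ℕ) : ℝ) (((((1 : ℕ) : ℝ)) +ᵥ τ : ℍ) : ℂ) = 𝕢 ((1 : ℕ) : ℝ) (τ : ℂ) := by
    rw [UpperHalfPlane.coe_vadd, add_comm]
    exact EIS.BridgeB_qParam_add ((1 : ℕ) : ℝ) (by norm_num) (τ : ℂ)
  rw [hq] at h1
  exact h1.unique h2

theorem laurent_gq (v : Fin 2 → ZMod (M * q)) (hv0 : v ≠ 0) (hv : redM M q (v 0) = 0) :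
    laurent 1 ⟨gq v, gq_mem v hv0 hv⟩ = HahnSeries.ofPowerSeries ℤ ℂ
      (PowerSeries.mk fun k => EIS.nc (EIS.zeta (M * q)) 4 v (M * k)) :=
  EIS.laurent_of_hasSum 1 ⟨gq v, gq_mem v hv0 hv⟩ _ (hasSum_Gn_dP v hv0 hv)

/-- the formal `x_v(t^q)`, `v₀ ≡ 0 mod M`. -/
def ys {R : Type*} [Field R] (z : R) (v : Fin 2 → ZMod (M * q)) : LaurentSeries R :=
  HahnSeries.ofPowerSeries ℤ R (PowerSeries.mk fun k => EIS.nc z 4 v (M * k)) * Vq R q (EIS.wfac R)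

theorem coeffMap_ys {R S : Type*} [Field R] [Field S] (f : R →+* S) (z : R)
    (v : Fin 2 → ZMod (M * q)) : coeffMap f (ys z v) = ys (f z) v := by
  unfold ys
  rw [map_mul, ES.coeffMap_ofPowerSeries, coeffMap_Vq, EIS.coeffMap_wfac]
  congr 2
  ext n
  rw [PowerSeries.coeff_map, PowerSeries.coeff_mk, PowerSeries.coeff_mk, EIS.map_nc]

/-- `x_v` in `Mer`. -/
def XvMer (v : Fin 2 → ZMod (M * q)) : Mer :=
  algebraMap Hol Mer ⟨EIS.Xf (M * q) v, EIS.Xf_mdiff _⟩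

/-- **the `q`-expansion of `x_v(qτ)`.** -/
theorem hasLau_cmp_XvMer (v : Fin 2 → ZMod (M * q)) (hv0 : v ≠ 0) (hv : redM M q (v 0) = 0) :
    HasLau 1 (cmp (dP q) (XvMer v)) (ys (EIS.zeta (M * q)) v) := by
  have h1 : XvMer v = algebraMap Hol Mer ⟨EIS.Gn (M * q) 4 v, EIS.Gn_mdiff (by norm_num) v⟩
      * algebraMap Hol Mer (cuspIncl 1 ⟨EIS.Wf, EIS.Wf_mem_HolCusp_one⟩) := by
    rw [← map_mul]
    rfl
  have h2 : cmp (dP q) (algebraMap Hol Mer ⟨EIS.Gn (M * q) 4 v, EIS.Gn_mdiff (by norm_num) v⟩)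
      = algebraMap Hol Mer (cuspIncl 1 ⟨gq v, gq_mem v hv0 hv⟩) := by
    rw [cmp_algebraMap]
    rfl
  have h3 := hasLau_of_holCusp 1 ⟨gq v, gq_mem v hv0 hv⟩
  rw [laurent_gq v hv0 hv] at h3
  have h4 := hasLau_of_holCusp 1 ⟨EIS.Wf, EIS.Wf_mem_HolCusp_one⟩
  rw [EIS.laurent_Wf] at h4
  rw [h1, map_mul, h2]
  exact h3.mul (An1.hasLau_cmp_inf q (dP q) (coe_dP_smul q) _ _ h4)

end

end Fermat.Agent.S43.R2
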