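import Fermat.Agent.S48.Coh1.Gamma1

/-!
# S43 / R2 : the matrix of the partial Atkin-Lehner involution `w_q` of level `N = M q`

`q t - M y = 1`,  `g0 = (1 y; M qt) ∈ SL₂(ℤ)`,  `W = g0 * diag(q,1) = (q y; N qt)`, `det W = q`.

For `γ = (a b; c d) ∈ Γ₀(N)`:  `W γ = (cW γ) W` with `cW γ = g0 (a qb; c/q d) g0⁻¹ ∈ Γ₀(N)`,
lower right entry of `cW γ` `≡ q t d - M y a mod N` (i.e. `≡ a mod q`, `≡ d mod M`).
-/

set_option autoImplicit false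
set_option linter.unusedSectionVars false

open UpperHalfPlane ModularForm CongruenceSubgroup Matrix.SpecialLinearGroup
open scoped MatrixGroups ModularForm

namespace Fermat.Agent.S43.R2

open Fermat.Agent.S48.Coh1
open P2MW.S_ModularForm_heckeU_slash_eq_self_of_mem_Gamma0.ModularForm.HeckeSlashInvariance

noncomputable section

/-- Bezout data `q t - M y = 1`. -/
structure BZ (M q : ℕ) where
  /-- the coefficient `y` -/
  y : ℤ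
  /-- the coefficient `t` -/
  t : ℤ
  h : (q : ℤ) * t - M * y = 1

theorem nonempty_BZ {M q : ℕ} (h : Nat.Coprime q M) : Nonempty (BZ M q) := by
  have hb := Int.gcd_eq_gcd_ab (q : ℤ) (M : ℤ)
  rw [Int.gcd_natCast_natCast, h] at hb
  exact ⟨⟨-Int.gcdB q M, Int.gcdA q M, by push_cast at hb; linear_combination -hb⟩⟩

variable {M q : ℕ} (b : BZ M q)

/-- `(1 y; M qt)`. -/
def g0 : SL(2, ℤ) := ⟨!![1, b.y; (M : ℤ), q * b.t], by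
  rw [Matrix.det_fin_two_of]; linear_combination b.h⟩

/-- `(q y; M t)`. -/
def g1 : SL(2, ℤ) := ⟨!![(q : ℤ), b.y; (M : ℤ), b.t], by
  rw [Matrix.det_fin_two_of]; linear_combination b.h⟩

theorem exists_c' (γ : Gamma0 (M * q)) : ∃ c' : ℤ, (γ : SL(2, ℤ)) 1 0 = (M * q : ℕ) * c' :=
  (ZMod.intCast_zmod_eq_zero_iff_dvd _ _).mp (Gamma0_mem.mp γ.2)

/-- `c / N`. -/
def cN (γ : Gamma0 (M * q)) : ℤ := (exists_c' γ).choose

theorem cN_spec (γ : Gamma0 (M * q)) : (γ : SL(2, ℤ)) 1 0 = (M : ℤ) * q * cN γ := by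
  have := (exists_c' γ).choose_spec
  push_cast at this
  exact this

theorem det_eq' (γ : SL(2, ℤ)) : γ 0 0 * γ 1 1 - γ 0 1 * γ 1 0 = 1 := by
  have := γ.2
  rwa [Matrix.det_fin_two] at this

/-- `diag(q,1) γ diag(q,1)⁻¹ = (a qb; c/q d)`. -/
def dS (γ : Gamma0 (M * q)) : SL(2, ℤ) :=
  ⟨!![(γ : SL(2, ℤ)) 0 0, q * (γ : SL(2, ℤ)) 0 1; M * cN γ, (γ : SL(2, ℤ)) 1 1], by
    rw [Matrix.det_fin_two_of]
    linear_combination det_eq' (γ : SL(2, ℤ)) + ((γ : SL(2, ℤ)) 0 1) * cN_spec γ⟩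

theorem diag_mul [NeZero q] (γ : Gamma0 (M * q)) :
    heckeDiagMatrix q * mapGL ℝ (γ : SL(2, ℤ)) = mapGL ℝ (dS γ) * heckeDiagMatrix q := by
  have hp : q ≠ 0 := NeZero.ne q
  have he := congrArg (Int.cast : ℤ → ℝ) (cN_spec γ)
  push_cast at he
  have h00 : (dS γ) 0 0 = (γ : SL(2, ℤ)) 0 0 := rfl
  have h01 : (dS γ) 0 1 = q * (γ : SL(2, ℤ)) 0 1 := rfl
  have h10 : (dS γ) 1 0 = M * cN γ := rfl
  have h11 : (dS γ) 1 1 = (γ : SL(2, ℤ)) 1 1 := rfl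
  ext i j
  fin_cases i <;> fin_cases j <;>
    simp only [Matrix.GeneralLinearGroup.coe_mul, Matrix.mul_apply, Fin.sum_univ_two,
      val_heckeDiagMatrix hp, mapGL_apply, h00, h01, h10, h11, Fin.zero_eta, Fin.mk_one, Fin.isValue,
      Matrix.of_apply, Matrix.cons_val', Matrix.cons_val_zero, Matrix.cons_val_one,
      Matrix.cons_val_fin_one] <;> push_cast
  · ring
  · ring
  · linear_combination he
  · ring

theorem dS_det (γ : Gamma0 (M * q)) :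
    (γ : SL(2, ℤ)) 0 0 * (γ : SL(2, ℤ)) 1 1 - q * (γ : SL(2, ℤ)) 0 1 * (M * cN γ) = 1 := by
  linear_combination det_eq' (γ : SL(2, ℤ)) + ((γ : SL(2, ℤ)) 0 1) * cN_spec γ

/-- the cocycle, in `SL₂(ℤ)`: `g0 * dS γ * g0⁻¹`. -/
def cS (γ : Gamma0 (M * q)) : SL(2, ℤ) :=
  ⟨!![((γ : SL(2, ℤ)) 0 0 + b.y * (M * cN γ)) * (q * b.t)
        - (q * (γ : SL(2, ℤ)) 0 1 + b.y * (γ : SL(2, ℤ)) 1 1) * M,
      -b.y * ((γ : SL(2, ℤ)) 0 0 + b.y * (M * cN γ))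
        + (q * (γ : SL(2, ℤ)) 0 1 + b.y * (γ : SL(2, ℤ)) 1 1);
      (M * (γ : SL(2, ℤ)) 0 0 + q * b.t * (M * cN γ)) * (q * b.t)
        - (M * (q * (γ : SL(2, ℤ)) 0 1) + q * b.t * (γ : SL(2, ℤ)) 1 1) * M,
      -b.y * (M * (γ : SL(2, ℤ)) 0 0 + q * b.t * (M * cN γ))
        + (M * (q * (γ : SL(2, ℤ)) 0 1) + q * b.t * (γ : SL(2, ℤ)) 1 1)], by
    rw [Matrix.det_fin_two_of]
    linear_combination ((q : ℤ) * b.t - M * b.y + 1)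
      * ((γ : SL(2, ℤ)) 0 0 * (γ : SL(2, ℤ)) 1 1 - q * (γ : SL(2, ℤ)) 0 1 * (M * cN γ)) * b.h
      + dS_det γ⟩

theorem sl_mul_apply (A B : SL(2, ℤ)) (i j : Fin 2) :
    (A * B) i j = A i 0 * B 0 j + A i 1 * B 1 j := by
  rw [Matrix.SpecialLinearGroup.coe_mul, Matrix.mul_apply, Fin.sum_univ_two]

theorem cS_mul_g0 (γ : Gamma0 (M * q)) : cS b γ * g0 b = g0 b * dS γ := by
  have hb := b.h
  ext i j
  rw [sl_mul_apply, sl_mul_apply]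
  fin_cases i <;> fin_cases j
  · show (((γ : SL(2, ℤ)) 0 0 + b.y * (M * cN γ)) * (q * b.t)
        - (q * (γ : SL(2, ℤ)) 0 1 + b.y * (γ : SL(2, ℤ)) 1 1) * M) * 1
      + (-b.y * ((γ : SL(2, ℤ)) 0 0 + b.y * (M * cN γ))
        + (q * (γ : SL(2, ℤ)) 0 1 + b.y * (γ : SL(2, ℤ)) 1 1)) * M
      = 1 * (γ : SL(2, ℤ)) 0 0 + b.y * (M * cN γ)
    linear_combination ((γ : SL(2, ℤ)) 0 0 + b.y * (M * cN γ)) * hb
  · show (((γ : SL(2, ℤ)) 0 0 + b.y * (M * cN γ)) * (q * b.t)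
        - (q * (γ : SL(2, ℤ)) 0 1 + b.y * (γ : SL(2, ℤ)) 1 1) * M) * b.y
      + (-b.y * ((γ : SL(2, ℤ)) 0 0 + b.y * (M * cN γ))
        + (q * (γ : SL(2, ℤ)) 0 1 + b.y * (γ : SL(2, ℤ)) 1 1)) * (q * b.t)
      = 1 * (q * (γ : SL(2, ℤ)) 0 1) + b.y * (γ : SL(2, ℤ)) 1 1
    linear_combination (q * (γ : SL(2, ℤ)) 0 1 + b.y * (γ : SL(2, ℤ)) 1 1) * hb
  · show ((M * (γ : SL(2, ℤ)) 0 0 + q * b.t * (M * cN γ)) * (q * b.t)
        - (M * (q * (γ : SL(2, ℤ)) 0 1) + q * b.t * (γ : SL(2, ℤ)) 1 1) * M) * 1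
      + (-b.y * (M * (γ : SL(2, ℤ)) 0 0 + q * b.t * (M * cN γ))
        + (M * (q * (γ : SL(2, ℤ)) 0 1) + q * b.t * (γ : SL(2, ℤ)) 1 1)) * M
      = M * (γ : SL(2, ℤ)) 0 0 + q * b.t * (M * cN γ)
    linear_combination (M * (γ : SL(2, ℤ)) 0 0 + q * b.t * (M * cN γ)) * hb
  · show ((M * (γ : SL(2, ℤ)) 0 0 + q * b.t * (M * cN γ)) * (q * b.t)
        - (M * (q * (γ : SL(2, ℤ)) 0 1) + q * b.t * (γ : SL(2, ℤ)) 1 1) * M) * b.y
      + (-b.y * (M * (γ : SL(2, ℤ)) 0 0 + q * b.t * (M * cN γ))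
        + (M * (q * (γ : SL(2, ℤ)) 0 1) + q * b.t * (γ : SL(2, ℤ)) 1 1)) * (q * b.t)
      = M * (q * (γ : SL(2, ℤ)) 0 1) + q * b.t * (γ : SL(2, ℤ)) 1 1
    linear_combination (M * (q * (γ : SL(2, ℤ)) 0 1) + q * b.t * (γ : SL(2, ℤ)) 1 1) * hb

theorem cS_10 (γ : Gamma0 (M * q)) :
    (cS b γ) 1 0 = (M * q : ℕ) * (b.t * ((γ : SL(2, ℤ)) 0 0 - (γ : SL(2, ℤ)) 1 1)
      + q * b.t ^ 2 * cN γ - M * (γ : SL(2, ℤ)) 0 1) := by
  show (M * (γ : SL(2, ℤ)) 0 0 + q * b.t * (M * cN γ)) * (q * b.t)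
        - (M * (q * (γ : SL(2, ℤ)) 0 1) + q * b.t * (γ : SL(2, ℤ)) 1 1) * M = _
  push_cast
  ring

theorem cS_11 (γ : Gamma0 (M * q)) :
    (cS b γ) 1 1 = q * b.t * (γ : SL(2, ℤ)) 1 1 - M * b.y * (γ : SL(2, ℤ)) 0 0
      + (M * q : ℕ) * ((γ : SL(2, ℤ)) 0 1 - b.y * b.t * cN γ) := by
  show -b.y * (M * (γ : SL(2, ℤ)) 0 0 + q * b.t * (M * cN γ))
        + (M * (q * (γ : SL(2, ℤ)) 0 1) + q * b.t * (γ : SL(2, ℤ)) 1 1) = _
  push_cast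
  ring

theorem cS_mem (γ : Gamma0 (M * q)) : cS b γ ∈ Gamma0 (M * q) := by
  rw [Gamma0_mem, cS_10]
  push_cast
  rw [← Nat.cast_mul, ZMod.natCast_self, zero_mul]

/-- the cocycle. -/
def cW (γ : Gamma0 (M * q)) : Gamma0 (M * q) := ⟨cS b γ, cS_mem b γ⟩

theorem Gamma0Map_cW (γ : Gamma0 (M * q)) :
    Gamma0Map (M * q) (cW b γ) = (q : ZMod (M * q)) * (b.t : ZMod (M * q)) * Gamma0Map (M * q) γ
      - (M : ZMod (M * q)) * (b.y : ZMod (M * q)) * ((((γ : SL(2, ℤ)) 0 0 : ℤ)) : ZMod (M * q)) := by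
  show (((cS b γ) 1 1 : ℤ) : ZMod (M * q)) = _
  rw [cS_11]
  push_cast
  rw [← Nat.cast_mul, ZMod.natCast_self, zero_mul, add_zero]
  rfl

/-- the matrix `W`, in `GL₂(ℝ)`. -/
def wRep : GL (Fin 2) ℝ := mapGL ℝ (g0 b) * heckeDiagMatrix q

theorem wRep_mul [NeZero q] (γ : Gamma0 (M * q)) :
    wRep b * mapGL ℝ (γ : SL(2, ℤ)) = mapGL ℝ (cW b γ : SL(2, ℤ)) * wRep b := by
  show mapGL ℝ (g0 b) * heckeDiagMatrix q * mapGL ℝ (γ : SL(2, ℤ))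
    = mapGL ℝ (cS b γ) * (mapGL ℝ (g0 b) * heckeDiagMatrix q)
  rw [mul_assoc, diag_mul, ← mul_assoc, ← mul_assoc, ← map_mul, ← map_mul, cS_mul_g0]

theorem det_wRep_pos : 0 < (wRep b).val.det := by
  have h1 : (wRep b).val.det = ((wRep b).det : ℝ) := rfl
  rw [h1, wRep, map_mul, Units.val_mul]
  have h2 : ((mapGL ℝ (g0 b)).det : ℝ) = 1 := by simp
  rw [h2, one_mul]
  exact det_heckeDiagMatrix_pos q

variable (M q) in
/-- **the correspondence `w_q` on `Γ₀(M q)`.** -/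
def W0 [NeZero q] (b : BZ M q) : Corr (Gamma0 (M * q)) where
  X := Unit
  rep _ := wRep b
  perm _ := 1
  c γ _ := cW b γ
  perm_mul _ _ _ := rfl
  spec γ _ := wRep_mul b γ

theorem cast_a_mul_d (γ : Gamma0 (M * q)) :
    ((((γ : SL(2, ℤ)) 0 0 : ℤ)) : ZMod (M * q)) * Gamma0Map (M * q) γ = 1 := by
  have h := congrArg (Int.cast : ℤ → ZMod (M * q)) (det_eq' (γ : SL(2, ℤ)))
  push_cast at h
  rw [Gamma0_mem.mp γ.2, mul_zero, sub_zero] at h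
  exact h

theorem cast_BZ : (q : ZMod (M * q)) * (b.t : ZMod (M * q)) - (M : ZMod (M * q)) * (b.y : ZMod (M * q)) = 1 := by
  have h := congrArg (Int.cast : ℤ → ZMod (M * q)) b.h
  push_cast at h
  exact h

theorem Gamma0Map_cW_eq_one {γ : Gamma0 (M * q)} (h : Gamma0Map (M * q) γ = 1) :
    Gamma0Map (M * q) (cW b γ) = 1 := by
  have h1 := cast_a_mul_d γ
  rw [h, mul_one] at h1
  rw [Gamma0Map_cW, h, h1, mul_one, mul_one]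
  exact cast_BZ b

variable (M q) in
/-- **the correspondence `w_q` on `Γ₁(M q)`.** -/
def W1 [NeZero q] (b : BZ M q) : Corr (Gamma1 (M * q)) :=
  (W0 M q b).restrict (Gamma1_in_Gamma0 (M * q)) (fun γ _ hγ => by
    rw [mem_Gamma1_iff] at hγ ⊢
    exact Gamma0Map_cW_eq_one b hγ)

end

end Fermat.Agent.S43.R2
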