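import Fermat.Agent.S43.R2.WKum
import Fermat.Agent.S43.R2W.Prop
import Fermat.Agent.S43.R0.Pull
import Fermat.Agent.S43.CH.Cyc
import Fermat.Agent.SS.Formal.AL

/-!
# S43 / R2 : `w_q` on `KK = B1.Kum ℚ̄ (F1Q (Mq)).F m`  (concrete instance of `R2/WKum.lean`)

`B : R2W.Bz M q` (`q t - M z = 1`), `hN : 5 ≤ M q`, `hq : 1 < q`; data of `F1(Mq)`: `R0.DD hN`, `R0.HD hN`.

* `mixU B a b : (ℤ/Mq)ˣ` = the unit `≡ a (q)`, `≡ b (M)`;  `sw B d = mixU d⁻¹ d`, `eU B σ = mixU (cyc (Mq) σ) 1`;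
* `wK B hN hq m` : `w_q` on `KK`;
* `dia_wK`, `wK_dia` : `⟨d⟩ w = w ⟨sw d⟩`;   `wK_wK` : `w w = ⟨d₂⟩`;
* `wK_gal`, `wK_gal'` : `w σ = σ w ⟨eU σ⟩ = ⟨eU σ⟩⁻¹ σ w`;
* `wK_pull` : `w π^* = π^* w_X` for every `SS.IsAL M q w_X`;
* `wK_hecke` : `w T_l = T_l w ⟨mixU l 1⟩`;
* `gal_sub_dia_mem` : (S2) `(σ - ⟨eU σ⟩) KK ⊆ w K_∞` from (S1).
-/

set_option autoImplicit false

open AlgebraicCurve ModularCurve

namespace Fermat.Agent.S43.R2K

open Fermat.Agent.ES (GQ Qb FF)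
open Fermat.Agent.S48
open Fermat.Agent.S48.B1 (galKum diaKum heckeKum gpUnit)

noncomputable section

variable {M q : ℕ} [NeZero M] [NeZero q] [NeZero (M * q)] (B : R2W.Bz M q)

/-! ### units of `ℤ/Mq` by their two components -/

/-- the idempotent `≡ 1 (q)`, `≡ 0 (M)`. -/
def idP : ZMod (M * q) := ((-((M : ℤ) * B.z) : ℤ) : ZMod (M * q))

/-- the idempotent `≡ 0 (q)`, `≡ 1 (M)`. -/
def idQ : ZMod (M * q) := (((q : ℤ) * B.t : ℤ) : ZMod (M * q))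

theorem idP_add_idQ : idP B + idQ B = 1 := B.idem_add

theorem idP_mul_idQ : idP B * idQ B = 0 := by
  have h := B.PQ
  unfold idP idQ
  rw [Int.cast_neg, neg_mul, h, neg_zero]

theorem idP_sq : idP B * idP B = idP B := by
  have h1 := idP_add_idQ B
  have h2 := idP_mul_idQ B
  linear_combination idP B * h1 - h2

theorem idQ_sq : idQ B * idQ B = idQ B := by
  have h1 := idP_add_idQ B
  have h2 := idP_mul_idQ B
  linear_combination idQ B * h1 - h2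

/-- the unit `≡ a (q)`, `≡ b (M)`. -/
def mixU (a b : (ZMod (M * q))ˣ) : (ZMod (M * q))ˣ where
  val := idP B * a + idQ B * b
  inv := idP B * (a⁻¹ : (ZMod (M * q))ˣ) + idQ B * (b⁻¹ : (ZMod (M * q))ˣ)
  val_inv := by
    have h1 := idP_add_idQ B
    have h2 := idP_mul_idQ B
    have h3 := idP_sq B
    have h4 := idQ_sq B
    have ha : (a : ZMod (M * q)) * (a⁻¹ : (ZMod (M * q))ˣ) = 1 := a.mul_inv
    have hb : (b : ZMod (M * q)) * (b⁻¹ : (ZMod (M * q))ˣ) = 1 := b.mul_inv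
    linear_combination (idP B * idP B) * ha + (idQ B * idQ B) * hb + h3 + h4 + h1
      + ((a : ZMod (M * q)) * (b⁻¹ : (ZMod (M * q))ˣ) + (b : ZMod (M * q)) * (a⁻¹ : (ZMod (M * q))ˣ)) * h2
  inv_val := by
    have h1 := idP_add_idQ B
    have h2 := idP_mul_idQ B
    have h3 := idP_sq B
    have h4 := idQ_sq B
    have ha : (a : ZMod (M * q)) * (a⁻¹ : (ZMod (M * q))ˣ) = 1 := a.mul_inv
    have hb : (b : ZMod (M * q)) * (b⁻¹ : (ZMod (M * q))ˣ) = 1 := b.mul_inv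
    linear_combination (idP B * idP B) * ha + (idQ B * idQ B) * hb + h3 + h4 + h1
      + ((a : ZMod (M * q)) * (b⁻¹ : (ZMod (M * q))ˣ) + (b : ZMod (M * q)) * (a⁻¹ : (ZMod (M * q))ˣ)) * h2

theorem coe_mixU (a b : (ZMod (M * q))ˣ) :
    (mixU B a b : ZMod (M * q)) = idP B * a + idQ B * b := rfl

theorem mixU_self (a : (ZMod (M * q))ˣ) : mixU B a a = a := by
  apply Units.ext
  rw [coe_mixU, ← add_mul, idP_add_idQ, one_mul]

theorem mixU_mul (a b a' b' : (ZMod (M * q))ˣ) :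
    mixU B (a * a') (b * b') = mixU B a b * mixU B a' b' := by
  apply Units.ext
  rw [Units.val_mul, coe_mixU, coe_mixU, coe_mixU, Units.val_mul, Units.val_mul]
  have h2 := idP_mul_idQ B
  have h3 := idP_sq B
  have h4 := idQ_sq B
  linear_combination (-(a : ZMod (M * q)) * a') * h3 - ((b : ZMod (M * q)) * b') * h4
    - ((a : ZMod (M * q)) * b' + (b : ZMod (M * q)) * a') * h2

theorem mixU_one : mixU B 1 1 = 1 := mixU_self B 1

theorem mixU_inv (a b : (ZMod (M * q))ˣ) : (mixU B a b)⁻¹ = mixU B a⁻¹ b⁻¹ := rfl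

theorem mixU_mixU (a b a' b' : (ZMod (M * q))ˣ) :
    mixU B (mixU B a b) (mixU B a' b') = mixU B a b' := by
  apply Units.ext
  rw [coe_mixU, coe_mixU, coe_mixU, coe_mixU]
  have h2 := idP_mul_idQ B
  have h3 := idP_sq B
  have h4 := idQ_sq B
  linear_combination (a : ZMod (M * q)) * h3 + (b' : ZMod (M * q)) * h4
    + ((b : ZMod (M * q)) + (a' : ZMod (M * q))) * h2

/-- `d ↦ (d⁻¹ mod q, d mod M)`. -/
def sw (d : (ZMod (M * q))ˣ) : (ZMod (M * q))ˣ := mixU B d⁻¹ d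

theorem sw_mul (d d' : (ZMod (M * q))ˣ) : sw B (d * d') = sw B d * sw B d' := by
  rw [sw, sw, sw, ← mixU_mul, mul_inv]

theorem sw_mixU (a b : (ZMod (M * q))ˣ) : sw B (mixU B a b) = mixU B a⁻¹ b := by
  rw [sw, mixU_inv, mixU_mixU]

theorem sw_sw (d : (ZMod (M * q))ˣ) : sw B (sw B d) = d := by
  show sw B (mixU B d⁻¹ d) = d
  rw [sw_mixU, inv_inv, mixU_self]

theorem sw_mul_inv_mixU (l : (ZMod (M * q))ˣ) :
    sw B (l * (mixU B l 1)⁻¹) = l * sw B (mixU B l 1) := by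
  have h1 : sw B l = mixU B l⁻¹ l := rfl
  have h2 : l * mixU B l⁻¹ 1 = mixU B (l * l⁻¹) (l * 1) := by rw [mixU_mul, mixU_self]
  rw [sw_mul, mixU_inv, sw_mixU, sw_mixU, h1, ← mixU_mul, h2]
  simp

/-- the diamond twist of `σ`: `≡ χ(σ) (q)`, `≡ 1 (M)`. -/
def eU (σ : GQ) : (ZMod (M * q))ˣ := mixU B (CH.cyc (M * q) σ) 1

theorem eU_mul (σ τ : GQ) : eU B (σ * τ) = eU B σ * eU B τ := by
  rw [eU, eU, eU, ← mixU_mul, map_mul, one_mul]

theorem eU_one : eU B 1 = 1 := by rw [eU, map_one, mixU_one]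

theorem eU_inv (σ : GQ) : eU B σ⁻¹ = (eU B σ)⁻¹ := by
  rw [eU, eU, mixU_inv, map_inv, inv_one]

theorem sw_eU (σ : GQ) : sw B (eU B σ) = (eU B σ)⁻¹ := by
  rw [eU, sw_mixU, mixU_inv, inv_one]

/-! ### `w_q` on `KK` -/

variable (hN : 5 ≤ M * q) (hq : 1 < q) {m : ℕ}

/-- `w_q` on `KK`. -/
def wK (m : ℕ) : B1.Kum Qb (X1.F1Q (M * q)).F m →+ B1.Kum Qb (X1.F1Q (M * q)).F m :=
  autKum (B.wE (R0.DD hN) hq) m

theorem wK_bijective : Function.Bijective (wK B hN hq m) := autKum_bijective _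

/-- (W2) `⟨d⟩ w = w ⟨sw d⟩`. -/
theorem dia_wK (d : (ZMod (M * q))ˣ) (x : B1.Kum Qb (X1.F1Q (M * q)).F m) :
    diaKum (R0.HD hN) m d (wK B hN hq m x) = wK B hN hq m (diaKum (R0.HD hN) m (sw B d) x) :=
  dia_autKum (R0.HD hN) (B.wE (R0.DD hN) hq) (d := d) (d' := sw B d)
    (fun f => B.dia_wHom (R0.DD hN) hq d (sw B d) rfl f) x

theorem wK_dia (d : (ZMod (M * q))ˣ) (x : B1.Kum Qb (X1.F1Q (M * q)).F m) :
    wK B hN hq m (diaKum (R0.HD hN) m d x) = diaKum (R0.HD hN) m (sw B d) (wK B hN hq m x) := by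
  rw [dia_wK, sw_sw]

/-- (W4) `w w = ⟨d₂⟩`. -/
theorem wK_wK (x : B1.Kum Qb (X1.F1Q (M * q)).F m) :
    wK B hN hq m (wK B hN hq m x) = diaKum (R0.HD hN) m B.d2 x :=
  autKum_autKum (R0.HD hN) (B.wE (R0.DD hN) hq) (d2 := B.d2)
    (fun f => B.wHom_wHom (R0.DD hN) hq f) x

/-- (W3) on the field, with the cyclotomic character. -/
theorem wHom_galF (σ : GQ) (f : (X1.F1Q (M * q)).F) :
    B.wHom (R0.DD hN) hq ((X1.F1Q (M * q)).galF σ f)
      = (X1.F1Q (M * q)).galF σ (B.wHom (R0.DD hN) hq (An1.dia (R0.DD hN) (eU B σ) f)) := by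
  refine B.wHom_gal (R0.DD hN) hq σ
    (c := ((CH.cyc (M * q) σ : (ZMod (M * q))ˣ) : ZMod (M * q)).val)
    (ZMod.val_coe_unit_coprime _) (CH.cyc_spec (M * q) σ _ (X1.zM_pow (M * q))) (eU B σ) ?_ f
  rw [ZMod.natCast_zmod_val, eU, coe_mixU, Units.val_one, mul_one]
  rfl

/-- (W3) `w σ = σ w ⟨eU σ⟩`. -/
theorem wK_gal (σ : GQ) (x : B1.Kum Qb (X1.F1Q (M * q)).F m) :
    wK B hN hq m (galKum (X1.F1Q (M * q)) m σ x)
      = galKum (X1.F1Q (M * q)) m σ (wK B hN hq m (diaKum (R0.HD hN) m (eU B σ) x)) :=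
  autKum_gal (R0.HD hN) (B.wE (R0.DD hN) hq) (s := σ) (c := eU B σ)
    (fun f => wHom_galF B hN hq σ f) x

/-- (W3) `w σ = ⟨eU σ⟩⁻¹ σ w`. -/
theorem wK_gal' (σ : GQ) (x : B1.Kum Qb (X1.F1Q (M * q)).F m) :
    wK B hN hq m (galKum (X1.F1Q (M * q)) m σ x)
      = diaKum (R0.HD hN) m (eU B σ)⁻¹ (galKum (X1.F1Q (M * q)) m σ (wK B hN hq m x)) := by
  rw [wK_gal, wK_dia, sw_eU, B1.diaKum_galKum]

/-- if `χ_{Mq}(σ) ≡ 1 (q)` (i.e. `eU σ = 1`) then `w` commutes with `σ`. -/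
theorem wK_gal_of_eU_eq_one {σ : GQ} (h : eU B σ = 1) (x : B1.Kum Qb (X1.F1Q (M * q)).F m) :
    wK B hN hq m (galKum (X1.F1Q (M * q)) m σ x)
      = galKum (X1.F1Q (M * q)) m σ (wK B hN hq m x) := by
  rw [wK_gal, h, diaKum_one]

/-- `w T_l = T_l w ⟨(l mod q, 1 mod M)⟩`. -/
theorem wK_hecke (hD : (R0.HD hN).PreservesDm m) (hm : m ≠ 0)
    (p : Fermat.Agent.ES.D.GoodPrime (M * q)) (hcrux : B1.Crux1 (X1.F1Q (M * q)) p.1 m)
    (x : B1.Kum Qb (X1.F1Q (M * q)).F m) :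
    wK B hN hq m (heckeKum (R0.HD hN) hD p x)
      = heckeKum (R0.HD hN) hD p (wK B hN hq m (diaKum (R0.HD hN) m (mixU B (gpUnit p) 1) x)) := by
  obtain ⟨A, hA, φ, hφ⟩ := Fermat.Agent.S54.exists_frob p.1 p.2.1
  have hc : CH.cyc (M * q) φ = gpUnit p :=
    Units.ext (CH.cyc_frob (M * q) p.2.1 p.2.2 A hA φ hφ)
  have he : eU B φ = mixU B (gpUnit p) 1 := by rw [eU, hc]
  refine W_hecke (R0.HD hN) (wK B hN hq m) hD hm p hcrux A hA φ hφ (c := mixU B (gpUnit p) 1)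
    (fun y => by rw [← he]; exact wK_gal B hN hq φ y) (fun y => ?_) x
  rw [wK_dia, wK_dia, ← diaKum_mul, sw_mul_inv_mixU]

/-- (S2): `(σ - ⟨eU σ⟩) KK ⊆ K_0 = w K_∞`, from (S1) `(σ - 1) KK ⊆ K_∞`. -/
theorem gal_sub_dia_mem {Koo : AddSubgroup (B1.Kum Qb (X1.F1Q (M * q)).F m)} {σ : GQ}
    (hS1 : ∀ y, galKum (X1.F1Q (M * q)) m σ y - y ∈ Koo) (x : B1.Kum Qb (X1.F1Q (M * q)).F m) :
    galKum (X1.F1Q (M * q)) m σ x - diaKum (R0.HD hN) m (eU B σ) x ∈ K0 (wK B hN hq m) Koo :=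
  gal_sub_dia_mem_K0 (R0.HD hN) (wK B hN hq m) (wK_bijective B hN hq).2 hS1
    (wK_gal B hN hq σ) (fun y => by
      rw [wK_dia, sw_eU, diaKum_diaKum_inv]) x

/-! ### compatibility with `w` on `X₀(Mq)` -/

open Fermat.Agent.ES.An Fermat.Agent.S24 in
theorem φ_incl_alpha (f : FF M) :
    (R0.DD hN).φ (R0.incl hN (heckeAlphaBar Qb M q f)) = toMer M (bc M f) :=
  ((R0.DD hN).hasLau (R0.incl hN (heckeAlphaBar Qb M q f))).eq_of_eq (by
    have h := hasLau_toMer M (bc M f)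
    rw [coe_bc] at h
    rw [R0.coe_incl, coe_heckeAlphaBar]
    exact h)

/-- `w (incl x) = incl (w_X x)`. -/
theorem wHom_incl {w : FF (M * q) →ₐ[Qb] FF (M * q)} (hw : SS.IsAL M q w) (hq' : q.Prime)
    (x : FF (M * q)) : B.wHom (R0.DD hN) hq (R0.incl hN x) = R0.incl hN (w x) := by
  have hinv : ∀ (f : FF M) (γ : CongruenceSubgroup.Gamma0 M),
      Fermat.Agent.ES.An.cmp (Fermat.Agent.ES.An.slp (γ : Matrix.SpecialLinearGroup (Fin 2) ℤ))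
        ((R0.DD hN).φ (R0.incl hN (heckeAlphaBar Qb M q f)))
        = (R0.DD hN).φ (R0.incl hN (heckeAlphaBar Qb M q f)) := by
    intro f γ
    rw [φ_incl_alpha]
    exact Fermat.Agent.ES.An.cmp_toMer M γ _
  refine SS.induction_gen hq'
    (fun x => B.wHom (R0.DD hN) hq (R0.incl hN x) = R0.incl hN (w x)) ?_ ?_ ?_ ?_ ?_ ?_ x
  · intro c
    rw [AlgHom.commutes, AlgHom.commutes, AlgHom.commutes, AlgHom.commutes]
  · intro f
    apply Subtype.ext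
    rw [B.coe_wHom_of_inv (R0.DD hN) hq _ (hinv f), hw.alpha, R0.coe_incl, R0.coe_incl,
      coe_heckeAlphaBar, coe_heckeBetaBar]
  · intro f
    rw [hw.beta]
    refine B.wHom_Vq_of_inv (R0.DD hN) hq _ _ (hinv f) ?_
    rw [R0.coe_incl, R0.coe_incl, coe_heckeAlphaBar, coe_heckeBetaBar]
  · intro x y hx hy
    rw [map_add, map_add, map_add, map_add, hx, hy]
  · intro x y hx hy
    rw [map_mul, map_mul, map_mul, map_mul, hx, hy]
  · intro x hx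
    rw [map_inv₀, map_inv₀, map_inv₀, map_inv₀, hx]

/-- `w π^* = π^* w_X`. -/
theorem wK_pull {w : FF (M * q) →ₐ[Qb] FF (M * q)} (hw : SS.IsAL M q w) (hq' : q.Prime)
    (x : Fermat.Agent.ES.Kum (M * q) m) :
    wK B hN hq m (R0.pull hN m x) = R0.pull hN m (SS.wKum hw hq' m x) := by
  obtain ⟨f, rfl⟩ := Fermat.Agent.ES.Kum.mk_surjective x
  rw [SS.wKum_mk, R0.pull_mk, R0.pull_mk, wK, autKum_mk]
  exact congrArg B1.Kum.mk (Subtype.ext (Units.ext (wHom_incl B hN hq hw hq' _)))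

end

end Fermat.Agent.S43.R2K
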