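import Fermat.Agent.S48.B1.Comm

/-!
# S43 / R2 : an automorphism of the field acting on the Kummer module; formal transport

Generic over a `QField` `Q` with `H : HeckeData Q M` (use `Q = X1.F1Q N`, `H = R0.HD hN`).

* `equivOfSq w d2 h` : an algebra endomorphism `w` with `w (w f) = ⟨d2⟩ f` is an automorphism;
* `autKum e m` : the action of `e : Q.F ≃ₐ[ℚ̄] Q.F` on `Kum ℚ̄ Q.F m`, `autKumE` (as `≃+`);
* (W2) `dia_autKum`, (W3) `autKum_gal`, (W4) `autKum_autKum` : transport of the field level relations;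
* `autKum_hecke` : `w T_l = T_l w ⟨c⟩` (formal, from Eichler-Shimura `T_l = φ + l ⟨l⟩ φ⁻¹`);
* `K0 e Koo := w K_∞` and (S2) `gal_sub_dia_mem_K0` : `(s - ⟨c'⟩) x ∈ K_0` from (S1) `(s - 1) x ∈ K_∞`.
-/

set_option autoImplicit false

open AlgebraicCurve ModularCurve

namespace Fermat.Agent.S43.R2K

open Fermat.Agent.ES (GQ Qb)
open Fermat.Agent.S48.B1

noncomputable section

variable {Q : QField} {M : ℕ} (H : HeckeData Q M) {m : ℕ}

/-- an algebra endomorphism whose square is an automorphism is an automorphism. -/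
def equivOfSq (w : Q.F →ₐ[Qb] Q.F) (g : Q.F ≃ₐ[Qb] Q.F) (h : ∀ f, w (w f) = g f) :
    Q.F ≃ₐ[Qb] Q.F :=
  AlgEquiv.ofBijective w ⟨w.toRingHom.injective, fun f => ⟨w (g.symm f), by
    have h1 : w (w (g.symm f)) = g (g.symm f) := h _
    rw [h1, AlgEquiv.apply_symm_apply]⟩⟩

@[simp]
theorem equivOfSq_apply (w : Q.F →ₐ[Qb] Q.F) (g : Q.F ≃ₐ[Qb] Q.F) (h : ∀ f, w (w f) = g f)
    (f : Q.F) : equivOfSq w g h f = w f := rfl

/-- The action of an automorphism of `Q.F / ℚ̄` on the Kummer module. -/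
def autKum (e : Q.F ≃ₐ[Qb] Q.F) (m : ℕ) : Kum Qb Q.F m →+ Kum Qb Q.F m :=
  Kum.semi (SemilinearAut.ofAlgAut e)

theorem autKum_mk (e : Q.F ≃ₐ[Qb] Q.F) (f : Dm Qb Q.F m) :
    autKum e m (Kum.mk f)
      = Kum.mk ⟨semiU (SemilinearAut.ofAlgAut e) f, semiU_mem_Dm _ f.2⟩ := rfl

theorem coe_semiU_ofAlgAut (e : Q.F ≃ₐ[Qb] Q.F) (f : Q.Fˣ) :
    ((semiU (SemilinearAut.ofAlgAut e) f : Q.Fˣ) : Q.F) = e (f : Q.F) := rfl

theorem autKum_one (x : Kum Qb Q.F m) : autKum (1 : Q.F ≃ₐ[Qb] Q.F) m x = x := by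
  rw [autKum, map_one, Kum.semi_one]

theorem autKum_mul (e e' : Q.F ≃ₐ[Qb] Q.F) (x : Kum Qb Q.F m) :
    autKum (e * e') m x = autKum e m (autKum e' m x) := by
  rw [autKum, map_mul, Kum.semi_mul]
  rfl

theorem autKum_inv_autKum (e : Q.F ≃ₐ[Qb] Q.F) (x : Kum Qb Q.F m) :
    autKum e⁻¹ m (autKum e m x) = x := by
  rw [← autKum_mul, inv_mul_cancel, autKum_one]

theorem autKum_autKum_inv (e : Q.F ≃ₐ[Qb] Q.F) (x : Kum Qb Q.F m) :
    autKum e m (autKum e⁻¹ m x) = x := by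
  rw [← autKum_mul, mul_inv_cancel, autKum_one]

/-- `autKum` as an additive equivalence. -/
def autKumE (e : Q.F ≃ₐ[Qb] Q.F) (m : ℕ) : Kum Qb Q.F m ≃+ Kum Qb Q.F m :=
  { autKum e m with
    invFun := autKum e⁻¹ m
    left_inv := autKum_inv_autKum e
    right_inv := autKum_autKum_inv e }

@[simp]
theorem autKumE_apply (e : Q.F ≃ₐ[Qb] Q.F) (x : Kum Qb Q.F m) : autKumE e m x = autKum e m x := rfl

@[simp]
theorem autKumE_symm_apply (e : Q.F ≃ₐ[Qb] Q.F) (x : Kum Qb Q.F m) :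
    (autKumE e m).symm x = autKum e⁻¹ m x := rfl

theorem autKum_bijective (e : Q.F ≃ₐ[Qb] Q.F) : Function.Bijective (autKum e m) :=
  (autKumE e m).bijective

theorem autKum_dia (d : (ZMod M)ˣ) (x : Kum Qb Q.F m) : autKum (H.dia d) m x = diaKum H m d x := rfl

theorem diaKum_mul (d d' : (ZMod M)ˣ) (x : Kum Qb Q.F m) :
    diaKum H m (d * d') x = diaKum H m d (diaKum H m d' x) := by
  rw [← autKum_dia, map_mul, autKum_mul]
  rfl

theorem diaKum_one (x : Kum Qb Q.F m) : diaKum H m 1 x = x := by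
  rw [← autKum_dia, map_one, autKum_one]

theorem diaKum_inv_diaKum (d : (ZMod M)ˣ) (x : Kum Qb Q.F m) :
    diaKum H m d⁻¹ (diaKum H m d x) = x := by
  rw [← diaKum_mul, inv_mul_cancel, diaKum_one]

theorem diaKum_diaKum_inv (d : (ZMod M)ˣ) (x : Kum Qb Q.F m) :
    diaKum H m d (diaKum H m d⁻¹ x) = x := by
  rw [← diaKum_mul, mul_inv_cancel, diaKum_one]

/-! ### transport of the relations -/

variable (e : Q.F ≃ₐ[Qb] Q.F)

/-- (W2) on the Kummer module. -/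
theorem dia_autKum {d d' : (ZMod M)ˣ} (h : ∀ f : Q.F, H.dia d (e f) = e (H.dia d' f))
    (x : Kum Qb Q.F m) :
    diaKum H m d (autKum e m x) = autKum e m (diaKum H m d' x) := by
  obtain ⟨f, rfl⟩ := Kum.mk_surjective x
  rw [autKum_mk, diaKum_mk, diaKum_mk, autKum_mk]
  exact congrArg Kum.mk (Subtype.ext (Units.ext (h _)))

/-- (W3) on the Kummer module. -/
theorem autKum_gal {s : GQ} {c : (ZMod M)ˣ}
    (h : ∀ f : Q.F, e (Q.galF s f) = Q.galF s (e (H.dia c f))) (x : Kum Qb Q.F m) :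
    autKum e m (galKum Q m s x) = galKum Q m s (autKum e m (diaKum H m c x)) := by
  obtain ⟨f, rfl⟩ := Kum.mk_surjective x
  rw [galKum_mk, autKum_mk, diaKum_mk, autKum_mk, galKum_mk]
  exact congrArg Kum.mk (Subtype.ext (Units.ext (h _)))

/-- (W4) on the Kummer module. -/
theorem autKum_autKum {d2 : (ZMod M)ˣ} (h : ∀ f : Q.F, e (e f) = H.dia d2 f)
    (x : Kum Qb Q.F m) :
    autKum e m (autKum e m x) = diaKum H m d2 x := by
  obtain ⟨f, rfl⟩ := Kum.mk_surjective x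
  rw [autKum_mk, autKum_mk, diaKum_mk]
  exact congrArg Kum.mk (Subtype.ext (Units.ext (h _)))

/-- an automorphism commuting with `s` on the field commutes with `s` on the Kummer module. -/
theorem autKum_gal_comm {s : GQ} (h : ∀ f : Q.F, e (Q.galF s f) = Q.galF s (e f))
    (x : Kum Qb Q.F m) :
    autKum e m (galKum Q m s x) = galKum Q m s (autKum e m x) := by
  obtain ⟨f, rfl⟩ := Kum.mk_surjective x
  rw [galKum_mk, autKum_mk, autKum_mk, galKum_mk]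
  exact congrArg Kum.mk (Subtype.ext (Units.ext (h _)))

/-! ### purely formal consequences, stated for additive maps on the Kummer module

`W` is any additive map of the Kummer module (`W = autKum e m`). -/

section Formal

variable (W : Kum Qb Q.F m →+ Kum Qb Q.F m)

/-- (W3) for `s⁻¹`, from (W3) for `s` and (W2): `w s⁻¹ = s⁻¹ w ⟨c⁻¹⟩`. -/
theorem W_gal_inv {s : GQ} {c : (ZMod M)ˣ}
    (h3 : ∀ x, W (galKum Q m s x) = galKum Q m s (W (diaKum H m c x))) (x : Kum Qb Q.F m) :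
    W (galKum Q m s⁻¹ x) = galKum Q m s⁻¹ (W (diaKum H m c⁻¹ x)) := by
  have h := h3 (galKum Q m s⁻¹ (diaKum H m c⁻¹ x))
  rw [← galKum_mul, mul_inv_cancel, galKum_one, diaKum_galKum, diaKum_diaKum_inv] at h
  rw [h, ← galKum_mul, inv_mul_cancel, galKum_one]

/-- `w T_l = T_l w ⟨c⟩`: formal from `T_l = φ + l ⟨l⟩ φ⁻¹`, (W3) `w φ = φ w ⟨c⟩` and
(W2) `w ⟨l c⁻¹⟩ = ⟨l⟩ w ⟨c⟩`  [`c = (l mod q, 1 mod M)`: `sw (l c⁻²) = l`]. -/
theorem W_hecke (hD : H.PreservesDm m) (hm : m ≠ 0) (p : Fermat.Agent.ES.D.GoodPrime M)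
    (hcrux : Crux1 Q p.1 m) (A : ValuationSubring Qb) (hA : A.LiesOverPrime p.1) (φ : GQ)
    (hφ : A.IsFrobeniusAt φ p.1) {c : (ZMod M)ˣ}
    (h3 : ∀ x, W (galKum Q m φ x) = galKum Q m φ (W (diaKum H m c x)))
    (h2 : ∀ x, W (diaKum H m (gpUnit p * c⁻¹) x) = diaKum H m (gpUnit p) (W (diaKum H m c x)))
    (x : Kum Qb Q.F m) :
    W (heckeKum H hD p x) = heckeKum H hD p (W (diaKum H m c x)) := by
  rw [heckeKum_eq H hD hm p hcrux A hA φ hφ, heckeKum_eq H hD hm p hcrux A hA φ hφ, map_add,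
    map_nsmul, h3, diaKum_galKum, W_gal_inv H W h3, ← diaKum_mul, mul_comm c⁻¹, h2,
    diaKum_galKum]

/-- `K_0 := w K_∞`. -/
def K0 (Koo : AddSubgroup (Kum Qb Q.F m)) : AddSubgroup (Kum Qb Q.F m) := Koo.map W

theorem mem_K0 {Koo : AddSubgroup (Kum Qb Q.F m)} {x : Kum Qb Q.F m} :
    x ∈ K0 W Koo ↔ ∃ y ∈ Koo, W y = x := AddSubgroup.mem_map

theorem W_mem_K0 {Koo : AddSubgroup (Kum Qb Q.F m)} {y : Kum Qb Q.F m} (hy : y ∈ Koo) :
    W y ∈ K0 W Koo := AddSubgroup.mem_map_of_mem _ hy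

/-- (S2): `(s - ⟨c'⟩) x ∈ K_0` for every `x`, from (S1) `(s - 1) y ∈ K_∞`, (W3) `w s = s w ⟨c⟩`,
(W2) `⟨c'⟩ w ⟨c⟩ = w` and the surjectivity of `w`. -/
theorem gal_sub_dia_mem_K0 (hW : Function.Surjective W) {Koo : AddSubgroup (Kum Qb Q.F m)}
    {s : GQ} {c c' : (ZMod M)ˣ} (hS1 : ∀ y, galKum Q m s y - y ∈ Koo)
    (h3 : ∀ x, W (galKum Q m s x) = galKum Q m s (W (diaKum H m c x)))
    (h2 : ∀ x, diaKum H m c' (W (diaKum H m c x)) = W x) (x : Kum Qb Q.F m) :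
    galKum Q m s x - diaKum H m c' x ∈ K0 W Koo := by
  obtain ⟨y0, rfl⟩ := hW x
  have hy : W y0 = W (diaKum H m c (diaKum H m c⁻¹ y0)) := by rw [diaKum_diaKum_inv]
  rw [hy, ← h3, h2, ← map_sub]
  exact W_mem_K0 W (hS1 _)

/-- stability: if `K_∞` is stable under `g` and `w g' = g w`, then `K_0` is stable under `g`. -/
theorem K0_stable {Koo : AddSubgroup (Kum Qb Q.F m)} (g g' : Kum Qb Q.F m → Kum Qb Q.F m)
    (hg' : ∀ y ∈ Koo, g' y ∈ Koo) (h : ∀ y, g (W y) = W (g' y)) {x : Kum Qb Q.F m}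
    (hx : x ∈ K0 W Koo) : g x ∈ K0 W Koo := by
  obtain ⟨y, hy, rfl⟩ := (mem_K0 W).mp hx
  rw [h]
  exact W_mem_K0 W (hg' y hy)

/-- `#(KK / K_0) = #(KK / K_∞)`-type transport: `w` induces a bijection `x ∈ K_∞ ↔ w x ∈ K_0`. -/
theorem W_mem_K0_iff (hW : Function.Injective W) {Koo : AddSubgroup (Kum Qb Q.F m)}
    {y : Kum Qb Q.F m} : W y ∈ K0 W Koo ↔ y ∈ Koo := by
  refine ⟨fun h => ?_, W_mem_K0 W⟩
  obtain ⟨z, hz, hzy⟩ := (mem_K0 W).mp h
  rwa [← hW hzy]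

end Formal

end

end Fermat.Agent.S43.R2K
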